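import Mathlib
import Fermat.Agent.SS.Lin

/-!
# SS / (Z2fin) + (Z3) : the linear algebra core

`E` is a commutative `k`-algebra (in the application `Fb × Fb`), filtered by finite dimensional
subspaces `Rt a` (`= L(a X̄₁) × L(a X̄₂)`), `tb` is the reduction of the parameter, `ev x`, `ev' x`
are the two evaluations at the node `x`.  `T ζ a` is the space of `u ∈ Rt a` satisfying the twisted
gluing conditions `ev x u = ζ x * ev' x u`.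
-/

set_option autoImplicit false
set_option linter.style.haveILetI false
set_option linter.unusedSectionVars false

namespace Fermat.Agent.SS

open Module

/-- The abstract special fibre. -/
structure Fibre (k E ι : Type*) [Field k] [CommRing E] [Algebra k E] where
  Rt : ℕ → Submodule k E
  tb : E
  ev : ι → E →ₗ[k] k
  ev' : ι → E →ₗ[k] k
  a0 : ℕ
  d : ℤ
  c0 : ℤ
  mono : ∀ a, Rt a ≤ Rt (a + 1)
  fin : ∀ a, Module.Finite k (Rt a)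
  one_mem : (1 : E) ∈ Rt 0
  mul_mem : ∀ {a b : ℕ} {u v : E}, u ∈ Rt a → v ∈ Rt b → u * v ∈ Rt (a + b)
  tb_mem : tb ∈ Rt 1
  tb_reg : ∀ u : E, tb * u = 0 → u = 0
  tb_div : ∀ (a : ℕ) (v : E), v ∈ Rt (a + 1) → tb * v ∈ Rt (a + 1) → v ∈ Rt a
  dim : ∀ a, a0 ≤ a → (finrank k (Rt a) : ℤ) = d * a + c0
  ev_one : ∀ x, ev x 1 = 1
  ev'_one : ∀ x, ev' x 1 = 1
  ev_mul : ∀ (x : ι) {a b : ℕ} {u v : E}, u ∈ Rt a → v ∈ Rt b → ev x (u * v) = ev x u * ev x v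
  ev'_mul : ∀ (x : ι) {a b : ℕ} {u v : E}, u ∈ Rt a → v ∈ Rt b →
    ev' x (u * v) = ev' x u * ev' x v
  ev_tb : ∀ x, ev x tb = ev' x tb
  ev_surj : ∀ c c' : ι → k, ∃ u ∈ Rt a0, (∀ x, ev x u = c x) ∧ ∀ x, ev' x u = c' x

namespace Fibre

variable {k E ι : Type*} [Field k] [CommRing E] [Algebra k E] (Φ : Fibre k E ι)

theorem Rt_le {a b : ℕ} (h : a ≤ b) : Φ.Rt a ≤ Φ.Rt b :=
  monotone_nat_of_le_succ Φ.mono h

theorem pow_mem {a : ℕ} {u : E} (hu : u ∈ Φ.Rt a) (n : ℕ) : u ^ n ∈ Φ.Rt (n * a) := by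
  induction n with
  | zero => simpa using Φ.one_mem
  | succ n ih =>
    rw [pow_succ, Nat.succ_mul]
    exact Φ.mul_mem ih hu

theorem ev_pow (x : ι) {a : ℕ} {u : E} (hu : u ∈ Φ.Rt a) (n : ℕ) :
    Φ.ev x (u ^ n) = Φ.ev x u ^ n := by
  induction n with
  | zero => simpa using Φ.ev_one x
  | succ n ih => rw [pow_succ, Φ.ev_mul x (Φ.pow_mem hu n) hu, ih, pow_succ]

theorem ev'_pow (x : ι) {a : ℕ} {u : E} (hu : u ∈ Φ.Rt a) (n : ℕ) :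
    Φ.ev' x (u ^ n) = Φ.ev' x u ^ n := by
  induction n with
  | zero => simpa using Φ.ev'_one x
  | succ n ih => rw [pow_succ, Φ.ev'_mul x (Φ.pow_mem hu n) hu, ih, pow_succ]

/-- The space of sections of the line bundle with gluing datum `ζ`. -/
def T (ζ : ι → k) (a : ℕ) : Submodule k E where
  carrier := {u | u ∈ Φ.Rt a ∧ ∀ x, Φ.ev x u = ζ x * Φ.ev' x u}
  add_mem' := by
    rintro u v ⟨hu, hu'⟩ ⟨hv, hv'⟩
    refine ⟨add_mem hu hv, fun x => ?_⟩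
    rw [map_add, map_add, hu' x, hv' x, mul_add]
  zero_mem' := ⟨zero_mem _, fun x => by simp⟩
  smul_mem' := by
    rintro c u ⟨hu, hu'⟩
    refine ⟨Submodule.smul_mem _ c hu, fun x => ?_⟩
    rw [map_smul, map_smul, hu' x, smul_eq_mul, smul_eq_mul]
    ring

theorem mem_T {ζ : ι → k} {a : ℕ} {u : E} :
    u ∈ Φ.T ζ a ↔ u ∈ Φ.Rt a ∧ ∀ x, Φ.ev x u = ζ x * Φ.ev' x u := Iff.rfl

theorem T_le_Rt (ζ : ι → k) (a : ℕ) : Φ.T ζ a ≤ Φ.Rt a := fun _ h => h.1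

theorem T_le {ζ : ι → k} {a b : ℕ} (h : a ≤ b) : Φ.T ζ a ≤ Φ.T ζ b :=
  fun _ hu => ⟨Φ.Rt_le h hu.1, hu.2⟩

theorem finite_T (ζ : ι → k) (a : ℕ) : Module.Finite k (Φ.T ζ a) := by
  haveI := Φ.fin a
  exact Submodule.finiteDimensional_of_le (Φ.T_le_Rt ζ a)

theorem one_mem_T (a : ℕ) : (1 : E) ∈ Φ.T 1 a :=
  ⟨Φ.Rt_le (Nat.zero_le a) Φ.one_mem, fun x => by rw [Φ.ev_one, Φ.ev'_one, Pi.one_apply, one_mul]⟩

theorem mul_mem_T {ζ ζ' : ι → k} {a b : ℕ} {u v : E} (hu : u ∈ Φ.T ζ a) (hv : v ∈ Φ.T ζ' b) :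
    u * v ∈ Φ.T (ζ * ζ') (a + b) := by
  refine ⟨Φ.mul_mem hu.1 hv.1, fun x => ?_⟩
  rw [Φ.ev_mul x hu.1 hv.1, Φ.ev'_mul x hu.1 hv.1, hu.2 x, hv.2 x, Pi.mul_apply]
  ring

theorem tb_mem_T : Φ.tb ∈ Φ.T 1 1 :=
  ⟨Φ.tb_mem, fun x => by rw [Φ.ev_tb, Pi.one_apply, one_mul]⟩

theorem tb_mul_mem_T {ζ : ι → k} {a : ℕ} {u : E} (hu : u ∈ Φ.T ζ a) :
    Φ.tb * u ∈ Φ.T ζ (a + 1) := by
  have := Φ.mul_mem_T Φ.tb_mem_T hu
  rwa [one_mul, add_comm] at this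

theorem tb_pow_mem_T (n : ℕ) : Φ.tb ^ n ∈ Φ.T 1 n := by
  induction n with
  | zero => simpa using Φ.one_mem_T 0
  | succ n ih =>
    rw [pow_succ']
    exact Φ.tb_mul_mem_T ih

/-- an element of `T ζ a` with `ev' = 1` at all nodes. -/
theorem exists_mem_T_ev' (ζ : ι → k) {a : ℕ} (ha : Φ.a0 ≤ a) :
    ∃ u ∈ Φ.T ζ a, ∀ x, Φ.ev' x u = 1 := by
  obtain ⟨u, hu, h1, h2⟩ := Φ.ev_surj ζ 1
  exact ⟨u, ⟨Φ.Rt_le ha hu, fun x => by rw [h1, h2, Pi.one_apply, mul_one]⟩, fun x => h2 x⟩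

theorem zeta_eq_of_le {ζ ζ' : ι → k} {a b : ℕ} (ha : Φ.a0 ≤ a) (h : Φ.T ζ a ≤ Φ.T ζ' b) :
    ζ = ζ' := by
  obtain ⟨u, hu, h1⟩ := Φ.exists_mem_T_ev' ζ ha
  funext x
  have h2 := hu.2 x
  have h3 := (h hu).2 x
  rw [h1, mul_one] at h2 h3
  rw [← h2, h3]

variable [Fintype ι]

theorem finrank_T (ζ : ι → k) {a : ℕ} (ha : Φ.a0 ≤ a) :
    finrank k (Φ.T ζ a) + Fintype.card ι = finrank k (Φ.Rt a) := by
  classical
  haveI := Φ.fin a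
  let f : Φ.Rt a →ₗ[k] (ι → k) :=
    LinearMap.pi fun x => (Φ.ev x - ζ x • Φ.ev' x) ∘ₗ (Φ.Rt a).subtype
  have hf : ∀ (u : Φ.Rt a) (x : ι), f u x = Φ.ev x u - ζ x * Φ.ev' x u := fun u x => rfl
  have hsurj : LinearMap.range f = ⊤ := by
    rw [LinearMap.range_eq_top]
    intro c
    obtain ⟨u, hu, h1, h2⟩ := Φ.ev_surj c 0
    refine ⟨⟨u, Φ.Rt_le ha hu⟩, ?_⟩
    funext x
    rw [hf]
    simp [h1, h2]
  have hker : Φ.T ζ a = (LinearMap.ker f).map (Φ.Rt a).subtype := by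
    ext u
    constructor
    · rintro ⟨hu, hu'⟩
      refine ⟨⟨u, hu⟩, ?_, rfl⟩
      rw [SetLike.mem_coe, LinearMap.mem_ker]
      funext x
      rw [hf]
      simp [hu' x]
    · rintro ⟨⟨v, hv⟩, hv', rfl⟩
      rw [SetLike.mem_coe, LinearMap.mem_ker] at hv'
      refine ⟨hv, fun x => ?_⟩
      have := congrFun hv' x
      rw [hf] at this
      exact sub_eq_zero.1 this
  have h := LinearMap.finrank_range_add_finrank_ker f
  rw [hsurj, finrank_top, Module.finrank_fintype_fun_eq_card] at h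
  rw [hker, Submodule.finrank_map_subtype_eq]
  omega

theorem finrank_T_eq (ζ ζ' : ι → k) {a : ℕ} (ha : Φ.a0 ≤ a) :
    finrank k (Φ.T ζ a) = finrank k (Φ.T ζ' a) := by
  have h1 := Φ.finrank_T ζ ha
  have h2 := Φ.finrank_T ζ' ha
  omega

/-- multiplication by `tb`. -/
noncomputable def mulTb : E →ₗ[k] E := LinearMap.mulLeft k Φ.tb

theorem mulTb_apply (u : E) : Φ.mulTb u = Φ.tb * u := rfl

theorem mulTb_injective : Function.Injective Φ.mulTb := by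
  rw [← LinearMap.ker_eq_bot, LinearMap.ker_eq_bot']
  exact fun u hu => Φ.tb_reg u hu

/-- `T ζ (a+1) = T ζ a + tb T ζ a` for large `a`. -/
theorem T_succ_le (ζ : ι → k) {a : ℕ} (ha : Φ.a0 + 1 ≤ a) :
    Φ.T ζ (a + 1) ≤ Φ.T ζ a ⊔ (Φ.T ζ a).map Φ.mulTb := by
  obtain ⟨b, rfl⟩ : ∃ b, a = b + 1 := ⟨a - 1, by omega⟩
  have hb : Φ.a0 ≤ b := by omega
  haveI := Φ.finite_T ζ (b + 1)
  haveI := Φ.finite_T ζ (b + 1 + 1)
  haveI := Φ.finite_T ζ b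
  have hinf : Φ.T ζ (b + 1) ⊓ (Φ.T ζ (b + 1)).map Φ.mulTb = (Φ.T ζ b).map Φ.mulTb := by
    apply le_antisymm
    · rintro u ⟨hu, v, hv, rfl⟩
      refine ⟨v, ⟨Φ.tb_div b v hv.1 hu.1, hv.2⟩, rfl⟩
    · rintro u ⟨v, hv, rfl⟩
      exact ⟨Φ.tb_mul_mem_T hv, v, Φ.T_le (Nat.le_succ b) hv, rfl⟩
  have hle : Φ.T ζ (b + 1) ⊔ (Φ.T ζ (b + 1)).map Φ.mulTb ≤ Φ.T ζ (b + 1 + 1) := by
    apply sup_le (Φ.T_le (Nat.le_succ _))
    rintro u ⟨v, hv, rfl⟩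
    exact Φ.tb_mul_mem_T hv
  have hmap : ∀ c, finrank k ((Φ.T ζ c).map Φ.mulTb) = finrank k (Φ.T ζ c) := fun c =>
    (LinearEquiv.finrank_eq (Submodule.equivMapOfInjective Φ.mulTb Φ.mulTb_injective _)).symm
  have h1 := Submodule.finrank_sup_add_finrank_inf_eq (Φ.T ζ (b + 1))
    ((Φ.T ζ (b + 1)).map Φ.mulTb)
  rw [hinf, hmap, hmap] at h1
  have e0 := Φ.finrank_T ζ hb
  have e1 := Φ.finrank_T ζ (a := b + 1) (by omega)
  have e2 := Φ.finrank_T ζ (a := b + 1 + 1) (by omega)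
  have d0 := Φ.dim b hb
  have d1 := Φ.dim (b + 1) (by omega)
  have d2 := Φ.dim (b + 1 + 1) (by omega)
  have hfin : finrank k ↥(Φ.T ζ (b + 1) ⊔ (Φ.T ζ (b + 1)).map Φ.mulTb)
      = finrank k (Φ.T ζ (b + 1 + 1)) := by
    push_cast at d0 d1 d2
    have : ((finrank k ↥(Φ.T ζ (b + 1) ⊔ (Φ.T ζ (b + 1)).map Φ.mulTb) : ℕ) : ℤ)
        = (finrank k (Φ.T ζ (b + 1 + 1)) : ℕ) := by
      have h1' : ((finrank k ↥(Φ.T ζ (b + 1) ⊔ (Φ.T ζ (b + 1)).map Φ.mulTb) : ℕ) : ℤ)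
          + (finrank k (Φ.T ζ b) : ℕ) = (finrank k (Φ.T ζ (b + 1)) : ℕ)
            + (finrank k (Φ.T ζ (b + 1)) : ℕ) := by exact_mod_cast h1
      have e0' : ((finrank k (Φ.T ζ b) : ℕ) : ℤ) + Fintype.card ι = (finrank k (Φ.Rt b) : ℕ) := by
        exact_mod_cast e0
      have e1' : ((finrank k (Φ.T ζ (b + 1)) : ℕ) : ℤ) + Fintype.card ι
          = (finrank k (Φ.Rt (b + 1)) : ℕ) := by exact_mod_cast e1
      have e2' : ((finrank k (Φ.T ζ (b + 1 + 1)) : ℕ) : ℤ) + Fintype.card ι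
          = (finrank k (Φ.Rt (b + 1 + 1)) : ℕ) := by exact_mod_cast e2
      linarith
    exact_mod_cast this
  exact (Submodule.eq_of_le_of_finrank_eq hle hfin).ge

/-- `T ζ (a₁ + n)` is spanned by the `tb ^ i * v`, `i ≤ n`, `v ∈ T ζ a₁`. -/
theorem mem_of_forall_pow_mul (ζ : ι → k) {a₁ : ℕ} (ha : Φ.a0 + 1 ≤ a₁) (n : ℕ) :
    ∀ (M : Submodule k E), (∀ i ≤ n, ∀ v ∈ Φ.T ζ a₁, Φ.tb ^ i * v ∈ M) →
      Φ.T ζ (a₁ + n) ≤ M := by
  induction n with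
  | zero =>
    intro M hM u hu
    simpa using hM 0 le_rfl u hu
  | succ n ih =>
    intro M hM
    refine (Φ.T_succ_le ζ (a := a₁ + n) (by omega)).trans (sup_le ?_ ?_)
    · exact ih M fun i hi v hv => hM i (by omega) v hv
    · rw [Submodule.map_le_iff_le_comap]
      refine ih _ fun i hi v hv => ?_
      rw [Submodule.mem_comap, mulTb_apply, ← mul_assoc, ← pow_succ']
      exact hM (i + 1) (by omega) v hv

theorem exists_uniform {α : Type*} (s : Finset α) (P : ℕ → α → Prop)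
    (hmono : ∀ n m u, n ≤ m → P n u → P m u) (h : ∀ u ∈ s, ∃ n, P n u) :
    ∃ n, ∀ u ∈ s, P n u := by
  choose! f hf using h
  exact ⟨s.sup f, fun u hu => hmono _ _ _ (Finset.le_sup hu) (hf u hu)⟩

/-- **(Z2fin)**: a filtered family `S a ⊆ T 1 a` which exhausts `T 1` in both charts is equal to
`T 1 a` for large `a`. -/
theorem S_eq_T (S : ℕ → Submodule k E) (hS1 : ∀ a, S a ≤ Φ.T 1 a) (hS2 : ∀ a, S a ≤ S (a + 1))
    (hS3 : ∀ a u, u ∈ S a → Φ.tb * u ∈ S (a + 1))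
    (hS4 : ∀ a u, u ∈ Φ.T 1 a → ∃ b, u ∈ S b)
    (hS5 : ∀ a u, u ∈ Φ.T 1 a → ∃ N, Φ.tb ^ N * u ∈ S (a + N)) :
    ∃ a₂, ∀ a, a₂ ≤ a → S a = Φ.T 1 a := by
  classical
  have hSmono : ∀ {a b : ℕ}, a ≤ b → S a ≤ S b := fun h => monotone_nat_of_le_succ hS2 h
  have hSpow : ∀ (i a : ℕ) (u : E), u ∈ S a → Φ.tb ^ i * u ∈ S (a + i) := by
    intro i
    induction i with
    | zero => intro a u hu; simpa using hu
    | succ i ih =>
      intro a u hu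
      rw [pow_succ', mul_assoc, ← add_assoc]
      exact hS3 _ _ (ih a u hu)
  set a₁ := Φ.a0 + 1 with ha₁
  haveI := Φ.finite_T 1 a₁
  obtain ⟨s, hs⟩ : (Φ.T 1 a₁).FG := (Submodule.fg_iff_finiteDimensional _).2 inferInstance
  have hsT : ∀ u ∈ s, u ∈ Φ.T 1 a₁ := fun u hu => hs ▸ Submodule.subset_span hu
  obtain ⟨N, hN⟩ := exists_uniform s
    (fun n u => u ∈ S (a₁ + n) ∧ Φ.tb ^ n * u ∈ S (a₁ + n))
    (by
      rintro n m u hnm ⟨h1, h2⟩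
      refine ⟨hSmono (by omega) h1, ?_⟩
      obtain ⟨r, rfl⟩ := Nat.exists_eq_add_of_le hnm
      have := hSpow r _ _ h2
      rwa [← mul_assoc, ← pow_add, add_comm r n, add_assoc] at this)
    (by
      intro u hu
      obtain ⟨b, hb⟩ := hS4 a₁ u (hsT u hu)
      obtain ⟨n, hn⟩ := hS5 a₁ u (hsT u hu)
      refine ⟨b + n, hSmono (by omega) hb, ?_⟩
      have := hSpow b _ _ hn
      rwa [← mul_assoc, ← pow_add, add_assoc, add_comm n b] at this)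
  have hN' : ∀ u ∈ Φ.T 1 a₁, u ∈ S (a₁ + N) ∧ Φ.tb ^ N * u ∈ S (a₁ + N) := by
    intro u hu
    have hle : Φ.T 1 a₁ ≤ S (a₁ + N) ⊓ (S (a₁ + N)).comap (LinearMap.mulLeft k (Φ.tb ^ N)) := by
      rw [← hs, Submodule.span_le]
      intro v hv
      exact ⟨(hN v hv).1, (hN v hv).2⟩
    exact hle hu
  refine ⟨a₁ + 2 * N, fun a ha => le_antisymm (hS1 a) ?_⟩
  obtain ⟨n, rfl⟩ : ∃ n, a = a₁ + n := ⟨a - a₁, by omega⟩
  refine Φ.mem_of_forall_pow_mul 1 le_rfl n _ fun i hi v hv => ?_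
  by_cases hiN : N ≤ i
  · obtain ⟨r, rfl⟩ := Nat.exists_eq_add_of_le hiN
    have := hSpow r _ _ (hN' v hv).2
    rw [← mul_assoc, ← pow_add, add_comm r N] at this
    exact hSmono (by omega) this
  · exact hSmono (by omega) (hSpow i _ _ (hN' v hv).1)

/-- **(Z3)**: a subspace `W ⊆ Rt a` of the right dimension all of whose `m`-th powers satisfy the
gluing conditions is a twisted space `T ζ a`. -/
theorem exists_zeta [Infinite k] {m : ℕ} (hm : m ≠ 0) {a : ℕ} (ha : Φ.a0 ≤ a)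
    (W : Submodule k E) (hW : W ≤ Φ.Rt a) (hpow : ∀ u ∈ W, u ^ m ∈ Φ.T 1 (m * a))
    (hdim : finrank k W = finrank k (Φ.T 1 a)) :
    ∃ ζ : ι → k, (∀ x, ζ x ^ m = 1) ∧ W = Φ.T ζ a := by
  have h : ∀ x, ∃ z : k, z ^ m = 1 ∧ Φ.ev x ∘ₗ W.subtype = z • (Φ.ev' x ∘ₗ W.subtype) := by
    intro x
    apply exists_root_smul_of_pow_eq hm
    intro w
    have := (hpow w w.2).2 x
    rw [Φ.ev_pow x (hW w.2), Φ.ev'_pow x (hW w.2), Pi.one_apply, one_mul] at this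
    exact this
  choose ζ hζ1 hζ2 using h
  refine ⟨ζ, hζ1, ?_⟩
  haveI := Φ.finite_T ζ a
  apply Submodule.eq_of_le_of_finrank_eq
  · intro u hu
    exact ⟨hW hu, fun x => LinearMap.congr_fun (hζ2 x) ⟨u, hu⟩⟩
  · rw [hdim, Φ.finrank_T_eq 1 ζ ha]

end Fibre

end Fermat.Agent.SS
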